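import Mathlib

set_option autoImplicit false

/-!
# Eisenstein series with a multiplier system

For a subgroup `Γ ≤ SL(2, ℤ)` containing `T` and a unitary character `χ` of `Γ`, trivial on `T`
and `-1`, we construct a holomorphic form of even weight `k ≥ 4` with multiplier `χ`, holomorphic at
all cusps, and with nonzero value at `∞`.
-/

open UpperHalfPlane EisensteinSeries ModularForm Matrix Filter Topology Complex
open scoped MatrixGroups Manifold

namespace Fermat.Agent.MultSys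

/-- Eisenstein-type series with arbitrary (bounded) coefficients. -/
noncomputable def eis (k : ℤ) (φ : (Fin 2 → ℤ) → ℂ) (z : ℍ) : ℂ :=
  ∑' v : Fin 2 → ℤ, φ v * eisSummand k v z

variable {k : ℤ} {φ : (Fin 2 → ℤ) → ℂ} {C : ℝ}

theorem summable_norm (hk : 3 ≤ k) (hφ : ∀ v, ‖φ v‖ ≤ C) (z : ℍ) :
    Summable fun v : Fin 2 → ℤ => ‖φ v * eisSummand k v z‖ := by
  refine Summable.of_nonneg_of_le (fun _ => norm_nonneg _) (fun v => ?_)
    ((summable_norm_eisSummand hk z).mul_left C)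
  rw [norm_mul]
  exact mul_le_mul_of_nonneg_right (hφ v) (norm_nonneg _)

theorem vecMul_inv_self (v : Fin 2 → ℤ) (A : SL(2, ℤ)) :
    (v ᵥ* A.1) ᵥ* (A⁻¹).1 = v := by
  rw [vecMul_vecMul]
  have : A.1 * (A⁻¹).1 = 1 := congrArg Subtype.val (mul_inv_cancel A)
  rw [this, vecMul_one]

theorem vecMul_self_inv (v : Fin 2 → ℤ) (A : SL(2, ℤ)) :
    (v ᵥ* (A⁻¹).1) ᵥ* A.1 = v := by
  rw [vecMul_vecMul]
  have : (A⁻¹).1 * A.1 = 1 := congrArg Subtype.val (inv_mul_cancel A)
  rw [this, vecMul_one]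

/-- Right multiplication as a permutation of the lattice. -/
def mulRight (A : SL(2, ℤ)) : (Fin 2 → ℤ) ≃ (Fin 2 → ℤ) where
  toFun v := v ᵥ* A.1
  invFun v := v ᵥ* (A⁻¹).1
  left_inv v := vecMul_inv_self v A
  right_inv v := vecMul_self_inv v A

theorem eis_slash (k : ℤ) (φ : (Fin 2 → ℤ) → ℂ) (A : SL(2, ℤ)) :
    eis k φ ∣[k] A = eis k (fun v => φ (v ᵥ* (A⁻¹).1)) := by
  ext1 z
  rw [SL_slash_apply, _root_.zpow_neg, mul_inv_eq_iff_eq_mul₀ (zpow_ne_zero _ <| denom_ne_zero _ z)]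
  simp_rw [eis, eisSummand_SL2_apply]
  rw [← (mulRight A).tsum_eq (fun v => φ (v ᵥ* (A⁻¹).1) *
    eisSummand k v z), mul_comm, ← tsum_mul_left]
  refine tsum_congr fun v => ?_
  change _ = _ * (φ ((v ᵥ* _) ᵥ* _) * _)
  rw [vecMul_inv_self]
  ring_nf
  rfl

theorem eis_bound (hk : 3 ≤ k) (hφ : ∀ v, ‖φ v‖ ≤ C) (z : ℍ) :
    ‖eis k φ z‖ ≤ C * ∑' v : Fin 2 → ℤ, ‖eisSummand k v z‖ := by
  rw [← tsum_mul_left]
  refine (norm_tsum_le_tsum_norm (summable_norm hk hφ z)).trans ?_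
  refine (summable_norm hk hφ z).tsum_le_tsum (fun v => ?_)
    ((summable_norm_eisSummand hk z).mul_left C)
  rw [norm_mul]
  exact mul_le_mul_of_nonneg_right (hφ v) (norm_nonneg _)

theorem norm_eisSummand_T_zpow (v : Fin 2 → ℤ) (n : ℤ) (z : ℍ) :
    ‖eisSummand k v (ModularGroup.T ^ n • z)‖ =
      ‖eisSummand k (mulRight (ModularGroup.T ^ n) v) z‖ := by
  rw [eisSummand_SL2_apply, norm_mul]
  have : denom (ModularGroup.T ^ n : SL(2, ℤ)) z = 1 := by
    rw [ModularGroup.denom_apply, (ModularGroup.coe_T_zpow n)]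
    simp
  rw [this, _root_.one_zpow, norm_one, one_mul]
  rfl

/-- A uniform bound for the full Eisenstein sum in `Im z ≥ 1`. -/
theorem exists_bound (hk : 3 ≤ k) :
    ∃ B : ℝ, 0 ≤ B ∧ ∀ z : ℍ, 1 ≤ z.im → ∑' v : Fin 2 → ℤ, ‖eisSummand k v z‖ ≤ B := by
  refine ⟨∑' x : Fin 2 → ℤ, r ⟨⟨((1 : ℕ) : ℝ), 1⟩, one_pos⟩ ^ (-k) * ‖x‖ ^ (-k), ?_, fun z hz => ?_⟩
  · exact tsum_nonneg fun x => mul_nonneg (zpow_nonneg (r_pos _).le _)
      (zpow_nonneg (norm_nonneg _) _)
  · obtain ⟨n, hn⟩ := ModularGroup_T_zpow_mem_verticalStrip z (N := 1) one_pos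
    have h1 : ∑' v : Fin 2 → ℤ, ‖eisSummand k v z‖ =
        ∑' v : Fin 2 → ℤ, ‖eisSummand k v (ModularGroup.T ^ (((1 : ℕ) : ℤ) * n) • z)‖ := by
      rw [← (mulRight (ModularGroup.T ^ (((1 : ℕ) : ℤ) * n))).tsum_eq
        (fun v => ‖eisSummand k v z‖)]
      exact tsum_congr fun v => (norm_eisSummand_T_zpow v _ z).symm
    rw [h1]
    have hk' : (2 : ℝ) < k := by norm_cast
    apply (summable_norm_eisSummand hk _).tsum_le_tsum _
    · exact_mod_cast (summable_one_div_norm_rpow hk').mul_left <| r ⟨⟨((1 : ℕ) : ℝ), 1⟩, one_pos⟩ ^ (-k)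
    · intro x
      simp_rw [eisSummand, norm_zpow]
      have h2 := verticalStrip_anti_right _ hz hn
      exact_mod_cast summand_bound_of_mem_verticalStrip (lt_trans two_pos hk').le x one_pos h2

theorem isBoundedAtImInfty_eis (hk : 3 ≤ k) (hφ : ∀ v, ‖φ v‖ ≤ C) :
    IsBoundedAtImInfty (eis k φ) := by
  rw [UpperHalfPlane.isBoundedAtImInfty_iff]
  obtain ⟨B, hB, hB'⟩ := exists_bound hk
  refine ⟨C * B, 1, fun z hz => (eis_bound hk hφ z).trans ?_⟩
  have hC : 0 ≤ C := (norm_nonneg _).trans (hφ 0)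
  exact mul_le_mul_of_nonneg_left (hB' z hz) hC

theorem tendstoLocallyUniformly_eis (hk : 3 ≤ k) (hφ : ∀ v, ‖φ v‖ ≤ C) :
    TendstoLocallyUniformly (fun (s : Finset (Fin 2 → ℤ)) (z : ℍ) =>
      ∑ v ∈ s, φ v * eisSummand k v z) (eis k φ) atTop := by
  have hk' : (2 : ℝ) < k := by norm_cast
  have p_sum : Summable fun x : Fin 2 → ℤ => ‖x‖ ^ (-k) :=
    mod_cast summable_one_div_norm_rpow hk'
  simp only [tendstoLocallyUniformly_iff_forall_isCompact]
  intro K hK
  obtain ⟨A, B, hB, HABK⟩ := subset_verticalStrip_of_isCompact hK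
  have hC : 0 ≤ C := (norm_nonneg _).trans (hφ 0)
  refine (tendstoUniformlyOn_tsum (hu := (p_sum.mul_left <| r ⟨⟨A, B⟩, hB⟩ ^ (-k : ℝ)).mul_left C)
    (fun p z hz ↦ ?_)).mono HABK
  rw [norm_mul]
  refine mul_le_mul (hφ p) ?_ (norm_nonneg _) hC
  simpa only [eisSummand, one_div, ← _root_.zpow_neg, norm_zpow, ← Real.rpow_intCast,
    Int.cast_neg] using summand_bound_of_mem_verticalStrip (by positivity) p hB hz

theorem mdifferentiable_eis (hk : 3 ≤ k) (hφ : ∀ v, ‖φ v‖ ≤ C) : MDiff (eis k φ) := by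
  rw [UpperHalfPlane.mdifferentiable_iff]
  have h1 : TendstoLocallyUniformlyOn (fun (s : Finset (Fin 2 → ℤ)) =>
      ((fun z : ℍ => ∑ v ∈ s, φ v * eisSummand k v z) ∘ ofComplex)) (eis k φ ∘ ofComplex)
      atTop {z : ℂ | 0 < z.im} := by
    rw [← upperHalfPlaneSet, ← range_coe, ← Set.image_univ]
    apply TendstoLocallyUniformlyOn.comp (s := ⊤) _ _ _ (OpenPartialHomeomorph.continuousOn_symm _)
    · simp only [Set.top_eq_univ, tendstoLocallyUniformlyOn_univ]
      exact tendstoLocallyUniformly_eis hk hφ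
    · simp only [IsOpenEmbedding.toOpenPartialHomeomorph_target, Set.top_eq_univ,
        Set.mapsTo_range_iff, Set.mem_univ, forall_const]
  exact h1.differentiableOn (Eventually.of_forall fun s => DifferentiableOn.fun_sum
    fun v _ => (eisSummand_extension_differentiableOn k v).const_mul _) isOpen_upperHalfPlaneSet

/-- The value at `∞` of an Eisenstein-type series. -/
noncomputable def eisConst (k : ℤ) (φ : (Fin 2 → ℤ) → ℂ) : ℂ :=
  ∑' v : Fin 2 → ℤ, if v 0 = 0 then φ v * ((v 1 : ℂ)) ^ (-k) else 0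

theorem tendsto_eis (hk : 4 ≤ k) (hφ : ∀ v, ‖φ v‖ ≤ C) :
    Tendsto (eis k φ) atImInfty (𝓝 (eisConst k φ)) := by
  have hC : 0 ≤ C := (norm_nonneg _).trans (hφ 0)
  obtain ⟨B, hB, hB'⟩ := exists_bound (k := k - 1) (by omega)
  have key : ∀ z : ℍ, 1 ≤ z.im → ‖eis k φ z - eisConst k φ‖ ≤ C * B * (z.im)⁻¹ := by
    intro z hz
    have hs := (summable_norm (by omega : 3 ≤ k) hφ z).of_norm
    have hs' : Summable fun v : Fin 2 → ℤ => if v 0 = 0 then φ v * ((v 1 : ℂ)) ^ (-k) else 0 := by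
      refine Summable.of_norm_bounded (summable_norm (by omega : 3 ≤ k) hφ z) (fun v => ?_)
      split_ifs with h
      · rw [eisSummand, h, Int.cast_zero, zero_mul, zero_add]
      · rw [norm_zero]; exact norm_nonneg _
    rw [eis, eisConst, ← hs.tsum_sub hs']
    have hb : ∀ v : Fin 2 → ℤ, ‖φ v * eisSummand k v z -
        (if v 0 = 0 then φ v * ((v 1 : ℂ)) ^ (-k) else 0)‖ ≤
          C * (z.im)⁻¹ * ‖eisSummand (k - 1) v z‖ := by
      intro v
      split_ifs with h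
      · rw [eisSummand, h, Int.cast_zero, zero_mul, zero_add, sub_self, norm_zero]
        exact mul_nonneg (mul_nonneg hC (inv_nonneg.mpr z.im_pos.le)) (norm_nonneg _)
      · rw [sub_zero, norm_mul, mul_assoc]
        refine mul_le_mul (hφ v) ?_ (norm_nonneg _) hC
        have hne : (v 0 * (z : ℂ) + v 1) ≠ 0 := by
          intro h0
          have h1 := congrArg Complex.im h0
          simp at h1
          rcases h1 with h1 | h1
          · exact h h1
          · exact z.im_pos.ne' h1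
        have hle : z.im ≤ ‖v 0 * (z : ℂ) + v 1‖ := by
          refine le_trans ?_ (Complex.abs_im_le_norm _)
          have h1 : (v 0 * (z : ℂ) + v 1).im = v 0 * z.im := by simp
          rw [h1, abs_mul, abs_of_pos z.im_pos]
          have h2 : (1 : ℝ) ≤ |(v 0 : ℝ)| := by
            rw [← Int.cast_abs]
            exact_mod_cast Int.one_le_abs h
          nlinarith [z.im_pos]
        have h3 : eisSummand k v z = (v 0 * (z : ℂ) + v 1)⁻¹ * eisSummand (k - 1) v z := by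
          rw [eisSummand, eisSummand, ← _root_.zpow_neg_one, ← zpow_add₀ hne]
          congr 1
          ring
        rw [h3, norm_mul, norm_inv]
        exact mul_le_mul_of_nonneg_right (inv_anti₀ z.im_pos hle) (norm_nonneg _)
    have hsum := (summable_norm_eisSummand (k := k - 1) (by omega) z).mul_left (C * (z.im)⁻¹)
    refine (tsum_of_norm_bounded hsum.hasSum hb).trans ?_
    rw [tsum_mul_left]
    have h4 := hB' z hz
    have h5 : 0 ≤ C * (z.im)⁻¹ := mul_nonneg hC (inv_nonneg.mpr z.im_pos.le)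
    calc C * (z.im)⁻¹ * ∑' v : Fin 2 → ℤ, ‖eisSummand (k - 1) v z‖ ≤ C * (z.im)⁻¹ * B :=
          mul_le_mul_of_nonneg_left h4 h5
      _ = C * B * (z.im)⁻¹ := by ring
  rw [tendsto_iff_norm_sub_tendsto_zero]
  have h6 : Tendsto (fun z : ℍ => C * B * (z.im)⁻¹) atImInfty (𝓝 0) := by
    have h7 : Tendsto (fun z : ℍ => (z.im)⁻¹) atImInfty (𝓝 0) :=
      tendsto_inv_atTop_zero.comp tendsto_comap
    simpa using h7.const_mul (C * B)
  refine squeeze_zero' (Eventually.of_forall fun _ => norm_nonneg _) ?_ h6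
  rw [UpperHalfPlane.atImInfty_basis.eventually_iff]
  exact ⟨1, trivial, fun z hz => key z hz⟩

end Fermat.Agent.MultSys
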