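import Mathlib
import Fermat.Agent.MultSys.Eisenstein

set_option autoImplicit false

/-!
# Forms with a unitary multiplier system
-/

open UpperHalfPlane EisensteinSeries ModularForm Matrix Filter Topology Complex
open scoped MatrixGroups Manifold

namespace Fermat.Agent.MultSys

variable {Γ : Subgroup SL(2, ℤ)} (χ : Γ →* ℂˣ)

open scoped Classical in
/-- The coefficient function attached to a character. -/
noncomputable def charCoeff (v : Fin 2 → ℤ) : ℂ :=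
  if h : ∃ γ : Γ, (γ : SL(2, ℤ)).1 1 = v then (((χ h.choose)⁻¹ : ℂˣ) : ℂ) else 0

variable {χ}

theorem char_eq_of_row (hinf : ∀ γ : Γ, (γ : SL(2, ℤ)).1 1 0 = 0 → χ γ = 1) {γ δ : Γ}
    (h : (γ : SL(2, ℤ)).1 1 = (δ : SL(2, ℤ)).1 1) : χ γ = χ δ := by
  have h1 : ((γ * δ⁻¹ : Γ) : SL(2, ℤ)).1 1 0 = 0 := by
    have h2 : ((γ * δ⁻¹ : Γ) : SL(2, ℤ)) = (γ : SL(2, ℤ)) * (δ : SL(2, ℤ))⁻¹ := rfl
    have h3 : ((δ : SL(2, ℤ)) * (δ : SL(2, ℤ))⁻¹).1 1 0 = 0 := by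
      rw [mul_inv_cancel]
      rfl
    rw [h2]
    change ((γ : SL(2, ℤ)).1 * ((δ : SL(2, ℤ))⁻¹).1) 1 0 = 0
    change ((δ : SL(2, ℤ)).1 * ((δ : SL(2, ℤ))⁻¹).1) 1 0 = 0 at h3
    rw [Matrix.mul_apply_eq_vecMul] at h3 ⊢
    rw [h]
    exact h3
  have h4 := hinf _ h1
  rw [map_mul, map_inv, mul_inv_eq_one] at h4
  exact h4

theorem charCoeff_row (hinf : ∀ γ : Γ, (γ : SL(2, ℤ)).1 1 0 = 0 → χ γ = 1) (γ : Γ) :
    charCoeff χ ((γ : SL(2, ℤ)).1 1) = (((χ γ)⁻¹ : ℂˣ) : ℂ) := by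
  have h : ∃ δ : Γ, (δ : SL(2, ℤ)).1 1 = (γ : SL(2, ℤ)).1 1 := ⟨γ, rfl⟩
  rw [charCoeff, dif_pos h, char_eq_of_row hinf h.choose_spec]

theorem charCoeff_zero {v : Fin 2 → ℤ} (h : ¬ ∃ γ : Γ, (γ : SL(2, ℤ)).1 1 = v) :
    charCoeff χ v = 0 := by
  rw [charCoeff, dif_neg h]

theorem norm_charCoeff_le (hu : ∀ γ, ‖(χ γ : ℂ)‖ = 1) (v : Fin 2 → ℤ) : ‖charCoeff χ v‖ ≤ 1 := by
  by_cases h : ∃ γ : Γ, (γ : SL(2, ℤ)).1 1 = v
  · rw [charCoeff, dif_pos h, Units.val_inv_eq_inv_val, norm_inv, hu, inv_one]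
  · rw [charCoeff_zero h, norm_zero]
    exact zero_le_one

theorem charCoeff_mul (hinf : ∀ γ : Γ, (γ : SL(2, ℤ)).1 1 0 = 0 → χ γ = 1) (δ : Γ)
    (v : Fin 2 → ℤ) :
    charCoeff χ (v ᵥ* (((δ : SL(2, ℤ))⁻¹).1)) = (χ δ : ℂ) * charCoeff χ v := by
  by_cases h : ∃ γ : Γ, (γ : SL(2, ℤ)).1 1 = v
  · obtain ⟨γ, rfl⟩ := h
    have h1 : (γ : SL(2, ℤ)).1 1 ᵥ* (((δ : SL(2, ℤ))⁻¹).1) =
        ((γ * δ⁻¹ : Γ) : SL(2, ℤ)).1 1 := (Matrix.mul_apply_eq_vecMul _ _ _).symm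
    rw [h1, charCoeff_row hinf, charCoeff_row hinf, map_mul, map_inv, _root_.mul_inv_rev, inv_inv,
      Units.val_mul]
  · rw [charCoeff_zero h, mul_zero, charCoeff_zero]
    rintro ⟨γ, hγ⟩
    refine h ⟨γ * δ, ?_⟩
    have h1 : ((γ * δ : Γ) : SL(2, ℤ)).1 1 = (γ : SL(2, ℤ)).1 1 ᵥ* (δ : SL(2, ℤ)).1 :=
      Matrix.mul_apply_eq_vecMul _ _ _
    rw [h1, hγ, vecMul_self_inv]

theorem slash_charCoeff (hinf : ∀ γ : Γ, (γ : SL(2, ℤ)).1 1 0 = 0 → χ γ = 1) (k : ℤ) (δ : Γ) :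
    eis k (charCoeff χ) ∣[k] (δ : SL(2, ℤ)) = (χ δ : ℂ) • eis k (charCoeff χ) := by
  rw [eis_slash]
  ext z
  rw [Pi.smul_apply, smul_eq_mul, eis, eis, ← tsum_mul_left]
  refine tsum_congr fun v => ?_
  rw [charCoeff_mul hinf, mul_assoc]

theorem eisConst_charCoeff_ne_zero (hinf : ∀ γ : Γ, (γ : SL(2, ℤ)).1 1 0 = 0 → χ γ = 1) {k : ℤ}
    (hk : Even k) : eisConst k (charCoeff χ) ≠ 0 := by
  classical
  have h01 : charCoeff χ ![0, 1] = 1 := by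
    have h1 : ((1 : Γ) : SL(2, ℤ)).1 1 = ![0, 1] := by
      ext i
      fin_cases i <;> rfl
    rw [← h1, charCoeff_row hinf, map_one, inv_one, Units.val_one]
  have h02 : charCoeff χ ![0, -1] = 1 ∨ charCoeff χ ![0, -1] = 0 := by
    by_cases h : ∃ γ : Γ, (γ : SL(2, ℤ)).1 1 = ![0, -1]
    · obtain ⟨γ, hγ⟩ := h
      left
      rw [← hγ, charCoeff_row hinf, hinf γ (by rw [hγ]; rfl), inv_one, Units.val_one]
    · right
      exact charCoeff_zero h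
  have h3 : ∀ v : Fin 2 → ℤ, v ∉ ({![0, 1], ![0, -1]} : Finset (Fin 2 → ℤ)) →
      (if v 0 = 0 then charCoeff χ v * ((v 1 : ℂ)) ^ (-k) else 0) = 0 := by
    intro v hv
    split_ifs with h0
    · by_cases h : ∃ γ : Γ, (γ : SL(2, ℤ)).1 1 = v
      · exfalso
        obtain ⟨γ, hγ⟩ := h
        apply hv
        have hdet := (γ : SL(2, ℤ)).2
        rw [Matrix.det_fin_two] at hdet
        have h10 : (γ : SL(2, ℤ)).1 1 0 = 0 := by rw [hγ, h0]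
        have h11 : (γ : SL(2, ℤ)).1 1 1 = v 1 := by rw [hγ]
        rw [h10, h11, mul_zero, sub_zero] at hdet
        have hu : IsUnit (v 1) := IsUnit.of_mul_eq_one _ (by rw [mul_comm]; exact hdet)
        rw [Finset.mem_insert, Finset.mem_singleton]
        rcases Int.isUnit_iff.mp hu with h1 | h1
        · left
          ext i
          fin_cases i
          · exact h0
          · exact h1
        · right
          ext i
          fin_cases i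
          · exact h0
          · exact h1
      · rw [charCoeff_zero h, zero_mul]
    · rfl
  have hne : (![0, 1] : Fin 2 → ℤ) ≠ ![0, -1] := by decide
  rw [eisConst, tsum_eq_sum h3, Finset.sum_pair hne]
  have e1 : (if (![0, 1] : Fin 2 → ℤ) 0 = 0 then charCoeff χ ![0, 1] *
      (((![0, 1] : Fin 2 → ℤ) 1 : ℤ) : ℂ) ^ (-k) else 0) = 1 := by
    rw [if_pos (by rfl), h01]
    simp
  have e2 : (if (![0, -1] : Fin 2 → ℤ) 0 = 0 then charCoeff χ ![0, -1] *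
      (((![0, -1] : Fin 2 → ℤ) 1 : ℤ) : ℂ) ^ (-k) else 0) = charCoeff χ ![0, -1] := by
    rw [if_pos (by rfl)]
    have : (((![0, -1] : Fin 2 → ℤ) 1 : ℤ) : ℂ) ^ (-k) = 1 := by
      have h1 : (((![0, -1] : Fin 2 → ℤ) 1 : ℤ) : ℂ) = -1 := by simp
      rw [h1, hk.neg.neg_one_zpow]
    rw [this, mul_one]
  rw [e1, e2]
  rcases h02 with h | h <;> rw [h] <;> norm_num

/-- **Forms with multiplier.** For a unitary character `χ` of a subgroup `Γ` of `SL(2, ℤ)`, trivial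
on the stabiliser of `∞`, and even `k ≥ 4`, there is a holomorphic function on the upper half
plane transforming under `Γ` in weight `k` with multiplier `χ`, bounded at all cusps, with a
nonzero finite limit at `∞`. -/
theorem exists_form (hu : ∀ γ, ‖(χ γ : ℂ)‖ = 1)
    (hinf : ∀ γ : Γ, (γ : SL(2, ℤ)).1 1 0 = 0 → χ γ = 1) {k : ℤ} (hk : 4 ≤ k) (hke : Even k) :
    ∃ f : ℍ → ℂ, MDiff f ∧ (∀ γ : Γ, f ∣[k] (γ : SL(2, ℤ)) = (χ γ : ℂ) • f) ∧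
      (∀ A : SL(2, ℤ), IsBoundedAtImInfty (f ∣[k] A)) ∧
      ∃ c : ℂ, c ≠ 0 ∧ Tendsto f atImInfty (𝓝 c) := by
  have hb := norm_charCoeff_le hu
  refine ⟨eis k (charCoeff χ), mdifferentiable_eis (by omega) hb, slash_charCoeff hinf k,
    fun A => ?_, _, eisConst_charCoeff_ne_zero hinf hke, tendsto_eis hk hb⟩
  rw [eis_slash]
  exact isBoundedAtImInfty_eis (by omega) (fun v => hb _)

end Fermat.Agent.MultSys
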